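import Fermat.Statements.S22
import Fermat.Agent.S22.Alg
import Fermat.Agent.S22.CuspAll
import Fermat.Agent.S22.Nondeg
import Fermat.Agent.S22.Lattice
import Fermat.Agent.S22.HeckeStab

set_option autoImplicit false
open CuspForm

namespace Fermat.Agent.S22

theorem result (N : ℕ) [NeZero N] (k : ℤ) (S : Set ℕ) :
    Module.Finite ℤ (CuspForm.heckeAlgebra N k S) := by
  rcases le_or_gt k 1 with hk | hk
  · -- weight `≤ 1`: the space of cusp forms is zero
    have : Subsingleton (CuspForm (CongruenceSubgroup.Gamma0 N) k) :=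
      ⟨fun f g => by
        rw [cuspForm_eq_zero_of_weight_le_one N k hk f,
          cuspForm_eq_zero_of_weight_le_one N k hk g]⟩
    exact moduleFinite_adjoin_of_subsingleton (CuspForm.heckeGenerators N k S)
  · -- weight `k = n + 2`
    obtain ⟨n, rfl⟩ : ∃ n : ℕ, k = (n : ℤ) + 2 := ⟨(k - 2).toNat, by omega⟩
    exact moduleFinite_heckeAlgebra_of_periods N n (cuspForm_isCuspAll N n) S
      (fun f hf => eq_zero_of_periodFun_eq_zero N n f (cuspForm_isCuspAll N n f) hf)
      (periodCoeff_comp_heckeGenerator_mem N n (cuspForm_isCuspAll N n) S)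

end Fermat.Agent.S22
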