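import Fermat.Statements.S02

set_option autoImplicit false
open FreyPackage

namespace Fermat.Agent.S02

/-- Core step: a coprime solution whose second entry is even gives a Frey package
(after possibly negating all three entries to force `a ≡ 3 mod 4`). -/
theorem frey_of_coprime_even (a b c : ℤ) (ha : a ≠ 0) (hb : b ≠ 0) (hc : c ≠ 0) (p : ℕ)
    (pp : p.Prime) (hp5 : 5 ≤ p) (H : a ^ p + b ^ p = c ^ p) (hgcd : gcd a b = 1)
    (hb2 : (2 : ℤ) ∣ b) : Nonempty FreyPackage := by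
  have hodd : Odd p := pp.odd_of_ne_two (by omega)
  have ha_odd : ¬ (2 : ℤ) ∣ a := by
    intro h
    have h2 : (2 : ℤ) ∣ gcd a b := dvd_gcd h hb2
    rw [hgcd] at h2
    norm_num at h2
  have h4 : a % 4 = 1 ∨ a % 4 = 3 := by omega
  rcases h4 with h1 | h3
  · refine ⟨{ a := -a, b := -b, c := -c, ha0 := neg_ne_zero.2 ha, hb0 := neg_ne_zero.2 hb,
              hc0 := neg_ne_zero.2 hc, p := p, pp := pp, hp5 := hp5,
              hFLT := ?_, hgcdab := ?_, ha4 := ?_, hb2 := ?_ }⟩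
    · rw [hodd.neg_pow, hodd.neg_pow, hodd.neg_pow, ← H]; ring
    · rw [gcd_neg, neg_gcd]; exact hgcd
    · have h3' : ((-a : ℤ) : ZMod 4) = ((3 : ℤ) : ZMod 4) := by
        rw [ZMod.intCast_eq_intCast_iff]
        change (-a) % ((4 : ℕ) : ℤ) = 3 % ((4 : ℕ) : ℤ)
        push_cast
        omega
      simpa using h3'
    · exact (ZMod.intCast_zmod_eq_zero_iff_dvd (-b) 2).2 (by simpa using hb2)
  · refine ⟨{ a := a, b := b, c := c, ha0 := ha, hb0 := hb, hc0 := hc, p := p, pp := pp,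
              hp5 := hp5, hFLT := H, hgcdab := hgcd, ha4 := ?_, hb2 := ?_ }⟩
    · have h3' : ((a : ℤ) : ZMod 4) = ((3 : ℤ) : ZMod 4) := by
        rw [ZMod.intCast_eq_intCast_iff]
        change a % ((4 : ℕ) : ℤ) = 3 % ((4 : ℕ) : ℤ)
        push_cast
        omega
      simpa using h3'
    · exact (ZMod.intCast_zmod_eq_zero_iff_dvd b 2).2 (by simpa using hb2)

/-- A coprime solution gives a Frey package (after permuting the entries to make the
second one even). -/
theorem frey_of_coprime (a b c : ℤ) (ha : a ≠ 0) (hb : b ≠ 0) (hc : c ≠ 0) (p : ℕ)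
    (pp : p.Prime) (hp5 : 5 ≤ p) (H : a ^ p + b ^ p = c ^ p) (hgcd : gcd a b = 1) :
    Nonempty FreyPackage := by
  have hodd : Odd p := pp.odd_of_ne_two (by omega)
  have hppos : 0 < p := by omega
  by_cases hb2 : (2 : ℤ) ∣ b
  · exact frey_of_coprime_even a b c ha hb hc p pp hp5 H hgcd hb2
  by_cases ha2 : (2 : ℤ) ∣ a
  · exact frey_of_coprime_even b a c hb ha hc p pp hp5 (by rw [add_comm]; exact H)
      (by rw [gcd_comm]; exact hgcd) ha2
  -- both `a` and `b` are odd, so `c` is even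
  have ha_odd : Odd a := by
    rcases Int.even_or_odd a with h | h
    · exact absurd (even_iff_two_dvd.1 h) ha2
    · exact h
  have hb_odd : Odd b := by
    rcases Int.even_or_odd b with h | h
    · exact absurd (even_iff_two_dvd.1 h) hb2
    · exact h
  have hcp : Even (c ^ p) := by
    rw [← H]; exact (ha_odd.pow).add_odd (hb_odd.pow)
  have hc_even : Even c := (Int.even_pow.1 hcp).1
  have hgac : gcd a c = 1 := by
    rw [← FreyPackage.gcdab_eq_gcdac hppos H]; exact hgcd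
  refine frey_of_coprime_even a (-c) (-b) ha (neg_ne_zero.2 hc) (neg_ne_zero.2 hb) p pp hp5 ?_ ?_ ?_
  · rw [hodd.neg_pow, hodd.neg_pow, ← H]; ring
  · rw [gcd_neg]; exact hgac
  · exact (dvd_neg).2 (even_iff_two_dvd.1 hc_even)

theorem result (a b c : ℤ) (ha : a ≠ 0) (hb : b ≠ 0) (hc : c ≠ 0) (p : ℕ) (pp : p.Prime) (hp5 : 5 ≤ p) (H : a ^ p + b ^ p = c ^ p) : Nonempty FreyPackage := by
  have hppos : 0 < p := by omega
  have hp0 : p ≠ 0 := hppos.ne'
  have hgpos : 0 < Int.gcd a b := Int.gcd_pos_of_ne_zero_left b ha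
  obtain ⟨a', b', hg', haeq, hbeq⟩ := Int.exists_gcd_one hgpos
  set d : ℤ := (Int.gcd a b : ℤ) with hd
  have hd0 : d ≠ 0 := by
    rw [hd]; exact_mod_cast hgpos.ne'
  have hdc : d ∣ c := by
    rw [← Int.pow_dvd_pow_iff hp0, ← H]
    apply dvd_add <;> rw [Int.pow_dvd_pow_iff hp0]
    · exact Int.gcd_dvd_left a b
    · exact Int.gcd_dvd_right a b
  obtain ⟨c', hceq⟩ := hdc
  have ha' : a' ≠ 0 := by
    rintro rfl
    apply ha; rw [haeq]; simp
  have hb' : b' ≠ 0 := by
    rintro rfl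
    apply hb; rw [hbeq]; simp
  have hc' : c' ≠ 0 := by
    rintro rfl
    apply hc; rw [hceq]; simp
  have H' : a' ^ p + b' ^ p = c' ^ p := by
    have hdp : d ^ p ≠ 0 := pow_ne_zero p hd0
    apply mul_left_cancel₀ hdp
    have e1 : a = a' * d := haeq
    have e2 : b = b' * d := hbeq
    calc d ^ p * (a' ^ p + b' ^ p) = (a' * d) ^ p + (b' * d) ^ p := by ring
      _ = a ^ p + b ^ p := by rw [← e1, ← e2]
      _ = c ^ p := H
      _ = (d * c') ^ p := by rw [← hceq]
      _ = d ^ p * c' ^ p := by ring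
  have hgcd' : gcd a' b' = 1 := by
    rw [← Int.coe_gcd, hg']; rfl
  exact frey_of_coprime a' b' c' ha' hb' hc' p pp hp5 H' hgcd'

end Fermat.Agent.S02
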