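import Fermat.Statements.S05
import Fermat.Agent.S05.H4Nodal
import Fermat.Agent.S05.Kernel
import Fermat.Agent.S05.H76Comp

set_option autoImplicit false
open WeierstrassCurve WeierstrassCurve.Affine WeierstrassCurve.Affine.Point
open CuspForm ModularFormClass UpperHalfPlane
open FreyPackage

namespace Fermat.Agent.S05

theorem result (P : FreyPackage) {q : ℕ} (hq : q.Prime) (hq2 : q ≠ 2) (hqp : q ≠ P.p) : P.GaloisRepUnramifiedAt q := by
  refine h4_S05_of P hq hq2 hqp ?_ ?_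
  · intro A _ W ha₁ ha₂ ha₃ ha₄ ha₆ n hn
    exact kernelTorsionFree A ha₁ ha₂ ha₃ ha₄ ha₆
      (by rw [A.mem_nonunits_iff, hn]; exact lt_irrefl _)
  · intro A _ W h3 h6 r₁ r₂ hr₁ hr₂ ha₁ ha₂ hr π u hπ hπ0 hu n hn h4 x y h hP hx
    exact H76.torsion_node_valuation A W h3 h6 r₁ r₂ hr₁ hr₂ ha₁ ha₂ hr π u hπ hπ0 hu n hn h4
      h hP hx

end Fermat.Agent.S05
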