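import Fermat.Statements.S07
import Fermat.Prelude.Thm_ModularForm_sturm_bound_Gamma0
import Fermat.Prelude.Thm_CongruenceSubgroup_one_mem_strictPeriods_Gamma0

set_option autoImplicit false
open WeierstrassCurve WeierstrassCurve.Affine WeierstrassCurve.Affine.Point
open CuspForm ModularFormClass UpperHalfPlane
open ModularForm

namespace Fermat.Agent.S07

open scoped MatrixGroups in
/-- The first column mod 2, a complete invariant of left cosets of `Γ₀(2)`. -/
def firstColMod2 (g : SL(2, ℤ)) : ZMod 2 × ZMod 2 := ((g 0 0 : ZMod 2), (g 1 0 : ZMod 2))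

lemma zmod2_key : ∀ a b c d a' b' c' d' : ZMod 2, a * d - b * c = 1 → a' * d' - b' * c' = 1 →
    (a * c' - c * a' = 0 ↔ (a = a' ∧ c = c')) := by decide

open scoped MatrixGroups in
lemma firstColMod2_eq_iff (g h : SL(2, ℤ)) :
    firstColMod2 g = firstColMod2 h ↔ g⁻¹ * h ∈ CongruenceSubgroup.Gamma0 2 := by
  have hg : ((g 0 0 : ℤ) : ZMod 2) * (g 1 1 : ℤ) - (g 0 1 : ℤ) * (g 1 0 : ℤ) = 1 := by
    have := g.det_coe
    rw [Matrix.det_fin_two] at this
    exact_mod_cast congrArg (Int.cast : ℤ → ZMod 2) this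
  have hh : ((h 0 0 : ℤ) : ZMod 2) * (h 1 1 : ℤ) - (h 0 1 : ℤ) * (h 1 0 : ℤ) = 1 := by
    have := h.det_coe
    rw [Matrix.det_fin_two] at this
    exact_mod_cast congrArg (Int.cast : ℤ → ZMod 2) this
  have hentry : ((g⁻¹ * h) 1 0 : ℤ) = (g 0 0) * (h 1 0) - (g 1 0) * (h 0 0) := by
    rw [Matrix.SpecialLinearGroup.coe_mul, Matrix.SpecialLinearGroup.SL2_inv_expl,
      Matrix.mul_apply, Fin.sum_univ_two]
    simp
    ring
  rw [CongruenceSubgroup.Gamma0_mem, hentry]
  push_cast
  rw [zmod2_key _ _ _ _ _ _ _ _ hg hh]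
  simp [firstColMod2, Prod.ext_iff]

lemma index_Gamma0_two_le : (CongruenceSubgroup.Gamma0 2).index ≤ 4 := by
  classical
  let φ : (Matrix.SpecialLinearGroup (Fin 2) ℤ) ⧸ CongruenceSubgroup.Gamma0 2 → ZMod 2 × ZMod 2 :=
    Quotient.lift firstColMod2 (by
      intro g h hgh
      rw [firstColMod2_eq_iff]
      exact QuotientGroup.leftRel_apply.mp hgh)
  have hφ : Function.Injective φ := by
    intro x y
    induction x using Quotient.inductionOn with | _ g => ?_
    induction y using Quotient.inductionOn with | _ h => ?_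
    intro hxy
    apply Quotient.sound
    exact QuotientGroup.leftRel_apply.mpr ((firstColMod2_eq_iff g h).mp hxy)
  have := Nat.card_le_card_of_injective φ hφ
  have hcard : Nat.card (ZMod 2 × ZMod 2) = 4 := by
    simp
  rw [hcard] at this
  exact this

theorem result (f : CuspForm (CongruenceSubgroup.Gamma0 2) 2) : f = 0 := by
  apply CuspForm.toModularFormₗ_injective
  rw [_root_.map_zero]
  apply ModularForm.sturm_bound_Gamma0 2
  intro n hn
  have hidx := index_Gamma0_two_le
  have hn0 : n = 0 := by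
    have h1 : ((2 : ℤ) * ((CongruenceSubgroup.Gamma0 2).index : ℤ)).toNat ≤ 8 := by
      omega
    have h2 : ((2 : ℤ) * ((CongruenceSubgroup.Gamma0 2).index : ℤ)).toNat / 12 = 0 := by
      omega
    omega
  subst hn0
  exact CuspFormClass.qExpansion_coeff_zero f one_pos
    (CongruenceSubgroup.one_mem_strictPeriods_Gamma0 2)

end Fermat.Agent.S07
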