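import Fermat.Statements.S13
import Fermat.Agent.S13.Assembly
import Fermat.Agent.S13.H4RedP
import Fermat.Agent.S13.Loc2
import Fermat.Agent.S13.P2Count
import Fermat.Agent.S13.L2NoRat
import Fermat.Agent.Bridge.FinalS13

set_option autoImplicit false
open WeierstrassCurve WeierstrassCurve.Affine WeierstrassCurve.Affine.Point
open CuspForm ModularFormClass UpperHalfPlane
open FreyPackage

namespace Fermat.Agent.S13

theorem result (P : FreyPackage) (hred : ¬ GaloisRepIsIrreducible (K := AlgebraicClosure ℚ) ℚ P.freyCurve P.p) : HasGaloisStableCofixedLine (K := AlgebraicClosure ℚ) ℚ P.freyCurve P.p := by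
  exact s13_of_interfaces P Fermat.Agent.Bridge.ifaceMink (ifLoc2 P) (L2.ifR P) (ifP2 P)
    (ifRedP P) hred

end Fermat.Agent.S13
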