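import Fermat.Statements.S14
import Fermat.Agent.S14.AFinal
import Fermat.Agent.S14.Jac.Final
import Fermat.Agent.S14.Heart
import Fermat.Agent.S14.GlueFin
import Fermat.Agent.S14.GlueCoc
import Fermat.Agent.S14.D.AuxPrime
import Fermat.Agent.S14.D.GalDeg
import Fermat.Agent.S14.D.FrobFinal
import Fermat.Agent.S14.D.Split
import Fermat.Agent.S14.D.NormGlue
import Fermat.Agent.S14.D.NuHom
import Fermat.Agent.S14.D.H60NormHom
import Fermat.Agent.S14.D.H60RelNorm
import Fermat.Agent.S14.D.DownOf
import Fermat.Agent.S14.D.CrossHom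
import Fermat.Agent.S14.B.Main
import Fermat.Agent.S14.B.AmbIface
import Fermat.Agent.S14.B.Units

/-!
# S14: `ExtVanishingCts p` for every prime `p ≥ 3`

Pillar P-CFT.  The statement is reduced (glue, `GlueCoc` / `GlueFin`) to the `Heart`:
`ℚ(ζ_p)` has no everywhere unramified cyclic extension of degree `p`, Galois over `ℚ`, on which
`Gal(ℚ(ζ_p)/ℚ)` acts through the inverse cyclotomic character.  The heart follows from

* (A) the analytic first inequality                       (`ifaceA`),
* (B) the second inequality for unramified cyclic `L / K`  (`B.ifaceB_of B.ifaceUnit B.ifaceAmb`),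
* (C) Stickelberger's relation for Jacobi sums             (`ifaceC`),
* (D) Artin's crossing with one auxiliary prime            (`D.ifaceD_of_ifaces …`).
-/

set_option autoImplicit false
open ExtCitation

namespace Fermat.Agent.S14

/-- (B): the second inequality, assembled. -/
theorem final_ifaceB : IfaceB :=
  B.ifaceB_of B.ifaceUnit B.ifaceAmb

/-- (D): Artin crossing, assembled. -/
theorem final_ifaceD : IfaceD :=
  D.ifaceD_of_ifaces ifaceDGalois ifaceDDeg D.ifaceDFrob D.ifaceDFix D.ifaceDNuOne
    D.ifaceDNorm D.ifaceDNu D.h60_ifaceDNormHom D.h60_ifaceDRelNormPrime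
    (D.ifaceDDown_of D.ifaceDSplit D.ifaceDFix D.h60_ifaceDRelNormPrime) ifaceA ifaceAux

/-- The heart of the pillar. -/
theorem final_heart : Heart :=
  heart_of ifaceA final_ifaceB ifaceC final_ifaceD

theorem result {p : ℕ} [Fact p.Prime] (h3 : 3 ≤ p) :
    ExtCitation.ExtVanishingCts p :=
  extVanishingCts_of ifaceGlueCoc (ifaceGlueFin_of final_heart) h3

end Fermat.Agent.S14
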