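import Fermat.Statements.S16
import Fermat.Agent.S16.Final
import Fermat.Agent.S16.EisPFinal
import Fermat.Agent.S16.Glue.Small
import Fermat.Agent.S16.Glue.UBRed
import Fermat.Agent.S16.UB.FormPair
import Fermat.Agent.S16.UB.FormPairCusp
import Fermat.Agent.S16.UB.Cusp2
import Fermat.Agent.S16.UB.Free
import Fermat.Agent.S16.UB.Norm
import Fermat.Agent.S16.UB.NormArg
import Fermat.Agent.S16.UB.LV1
import Fermat.Agent.S16.UB.I2H38
import Fermat.Agent.S16.UB.Trace
import Fermat.Agent.S16.UB.C7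
import Fermat.Agent.S16.UB.C5
import Fermat.Agent.S16.UB.C3A
import Fermat.Agent.S16.UB.C3B
import Fermat.Agent.S16.UB.C2A
import Fermat.Agent.S16.UB.C2B
import Fermat.Agent.S16.Theta.Final

set_option autoImplicit false
open ModularCurve CuspForm

namespace Fermat.Agent.S16

/-- all six case files: there is no `ℓ`-integral `H ∈ M₂(Γ₀(p))` with `H ≡ 1 mod ℓ^b`. -/
theorem s16_ifaceNoH : IfaceNoH :=
  asm_noH
    (fun q ℓ hq hℓ hq5 hℓ7 => by
      haveI := Fact.mk hq; haveI := Fact.mk hℓ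
      exact noH_c7 q ℓ hq5 hℓ7 (ifaceExp q) (ifaceT0 q) (ifaceAlg q) (ifaceRing q ℓ)
        (ifaceNormArg q (ifaceNorm q)) ifaceLV1)
    (fun q hq hq5 => by
      haveI := Fact.mk hq; haveI : Fact (Nat.Prime 5) := Fact.mk (by norm_num)
      exact noH_c5 q hq5 (ifaceExp q) (ifaceT0 q) (ifaceAlg q) (ifaceRing q 5)
        (ifaceNormArg q (ifaceNorm q)) ifaceLV1)
    (fun q hq _ h => by
      haveI := Fact.mk hq
      exact noH_c3a q h (ifaceExp q) (ifaceT0 q)
        (i2h38_ifaceI2 q (ifaceExp q) (ifaceAlg q) (ifaceTrace q) (ifaceT0 q) ifaceLV1) ifaceLV1)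
    (fun q hq hq5 h => by
      haveI := Fact.mk hq; haveI : Fact (Nat.Prime 3) := Fact.mk (by norm_num)
      exact noH_c3b q hq5 h (ifaceExp q) (ifaceT0 q) (ifaceAlg q) (ifaceRing q 3)
        (ifaceNormArg q (ifaceNorm q)) ifaceLV1)
    (fun q hq _ h => by
      haveI := Fact.mk hq
      exact noH_c2a q h (ifaceExp q) (ifaceT0 q)
        (i2h38_ifaceI2 q (ifaceExp q) (ifaceAlg q) (ifaceTrace q) (ifaceT0 q) ifaceLV1) ifaceLV1)
    (fun q hq hq5 h => by
      haveI := Fact.mk hq; haveI : Fact (Nat.Prime 2) := Fact.mk (by norm_num)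
      exact noH_c2b q hq5 h (ifaceExp q) (ifaceT0 q) (ifaceAlg q) (ifaceRing q 2)
        (ifaceNormArg q (ifaceNorm q)) ifaceLV1)

end Fermat.Agent.S16

namespace Fermat.Agent.S16

theorem result
    (p : ℕ) [Fact p.Prime] :
    Nat.card (↥(heckeLatticeAlgebra p ∅) ⧸
        Ideal.map ((latticeRestrictHom p ∅).toRingHom.comp (heckeEvalForms p 2))
          (eisensteinIdeal p)) =
      eisensteinNumerator p := by
  refine s16_final p (ifaceEisP p) ?_ (ifaceCusp2 p (ifaceExp p) (ifaceT0 p) (ifaceCusp p))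
    (fin_noCongForm p (ifaceEisP p)
      (fun ℓ hℓ => by haveI := Fact.mk hℓ; exact ifaceUBRed p ℓ) ifaceSmall s16_ifaceNoH)
  intro hn
  refine Theta.ifaceTheta p ?_
  rintro rfl
  exact hn (by unfold ModularCurve.eisensteinNumerator; norm_num)

end Fermat.Agent.S16
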