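import Fermat.Statements.S24
import Fermat.Agent.S24.Final
import Fermat.Agent.S24.ModFinal
import Fermat.Agent.S24.FICore
import Fermat.Agent.S24.FIWrap
import Fermat.Agent.S24.OrbitPlaces
import Fermat.Agent.S24.DegLe
import Fermat.Agent.S24.EmbPoint
import Fermat.Agent.S24.EmbCusp
import Fermat.Agent.S24.GenusNat

set_option autoImplicit false
open ModularCurve

namespace Fermat.Agent.S24

theorem result (N : ℕ) [NeZero N]
    [AlgebraicCurve.HasCanonicalDivisor (K := AlgebraicClosure ℚ) (F := ↥(ModularCurve.modularFunctionFieldBar N))] :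
    (AlgebraicCurve.genus (AlgebraicClosure ℚ) ↥(ModularCurve.modularFunctionFieldBar N) : ℚ)
      = ModularCurve.genusFormula N := by
  have hZ : ZerosStatement Kbar (FF N) :=
    fun y hy hfin => @FICore.fi_zeros Kbar (FF N) _ _ _ _ _ y hy hfin
  have hFIgen := fi_general_of_zeros hZ
  have htr := transcendental_jBar N
  have hle := finrank_le_index N
  have hFI : FIStatement Kbar (FF N) (jBar N) := hFIgen (jBar N) htr hle.1
  have hM1c : M1cStatement N := fun t n hfi hdeg inst g h hh E hn =>
    @card_zeroPlaces_eq_card_orbits Kbar (FF N) _ _ _ t n hfi hdeg _ _ _ inst _ g h hh E hn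
  have hFin := ifaceFin_of N htr hle hFI hM1c (exists_embFamily_generic N)
  have hFib := ifaceFib_of N hle hFI hM1c (exists_embFamily_generic N) (exists_embFamily_I N)
    (exists_embFamily_rho N) (exists_embFamily_cusp N)
  exact result_of N hFin hFib hFIgen (ifaceGNat N)

end Fermat.Agent.S24
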