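-- Statement S28 (row 27): Igusa — for a prime ℓ not dividing N, the base change of the Igusa model of
-- X₀(N) over ℤ_(ℓ) to any field of characteristic ℓ is integral.
-- Proof: Part I (characteristic zero, modular unit U = W/Δ^φ(N); `exists_igusaInput`),
-- Part II (Newton polygon lemma + q-expansion principle; `exists_reduction_chartAlgFin/Inf`,
-- `isDomain_tensor_of_reduction`, `nontrivial_tensor_chartAlgMid`),
-- Part III (gluing of the two charts; `isIntegral_pullback_of_charts`).
import Fermat.Statements.S28
import Fermat.Agent.S28.PartOne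
import Fermat.Agent.S28.RAsm
import Fermat.Agent.S28.BaseChange
import Fermat.Agent.S28.Overlap
import Fermat.Agent.S28.Glue

set_option autoImplicit false
open AlgebraicGeometry CategoryTheory CategoryTheory.Limits ModularCurve ModularCurve.IgusaScheme
noncomputable section
set_option autoImplicit false
open ModularCurve ModularCurve.IgusaScheme

namespace Fermat.Agent.S28

set_option maxHeartbeats 4000000 in
set_option synthInstance.maxHeartbeats 400000 in
theorem result
    (N : ℕ) [NeZero N] (ℓ : ℕ) [Fact ℓ.Prime] (hℓN : ¬ ℓ ∣ N)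
    (K : Type) [Field K] [CharP K ℓ] [Algebra ↥(GaloisRep.ratLocalizedAt ℓ) K] :
    IsIntegral ↑(pullback (igusaTo N ℓ)
      (Spec.map (CommRingCat.ofHom (algebraMap ↥(GaloisRep.ratLocalizedAt ℓ) K)))) := by
  obtain ⟨D⟩ := exists_igusaInput N ℓ hℓN
  obtain ⟨ρFin, hFin⟩ := exists_reduction_chartAlgFin N ℓ D
  obtain ⟨ρInf, hInf⟩ := exists_reduction_chartAlgInf N ℓ D
  have h1 := isDomain_tensor_of_reduction ℓ (chartAlgFin N ℓ) ρFin hFin K
  have h2 := isDomain_tensor_of_reduction ℓ (chartAlgInf N ℓ) ρInf hInf K
  exact isIntegral_pullback_of_charts N ℓ K h1 h2 (nontrivial_tensor_chartAlgMid N ℓ K h1)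

end Fermat.Agent.S28
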