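import Fermat.Statements.S49
import Fermat.Agent.S49.EigenChar
import Fermat.Agent.S49.Eigenform
import Fermat.Agent.S49.HeckeFinite
import Fermat.Agent.S49.HeckeIdeal

set_option autoImplicit false
set_option linter.style.haveILetI false
open CuspForm EisensteinWeightOne CongruenceSubgroup ModularFormClass
open FLT FLT.AbstractIntegralStructure

namespace Fermat.Agent.S49

theorem result
    {N : ℕ} [NeZero N] (h : CuspForm.HasIntegralBasis N) {a : ℕ → ℤ}
    (heig : FormalHecke.IsEigensystem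
      (fun ℓ => if ℓ ∣ N then 0 else ((chiNegThree ℓ : ℤ) : ℤ)) a)
    (hreal : CuspForm.IsLatticeRealized N a) :
    ∃ (f : CuspForm (Gamma0 N) 2) (_ : f.IsNormalizedEigenform)
      (𝔪' : Ideal (integralClosure ℤ ℂ)), 𝔪'.IsMaximal ∧
      ((3 : ℕ) : integralClosure ℤ ℂ) ∈ 𝔪' ∧
      ∀ (ℓ : ℕ) (_ : ℓ.Prime) (_ : ¬ ℓ ∣ N),
        ∃ c : integralClosure ℤ ℂ, (c : ℂ) = ModularFormClass.qCoeff f ℓ ∧
          c - (a ℓ : integralClosure ℤ ℂ) ∈ 𝔪' := by
  classical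
  obtain ⟨f₀, hf₀, af, haf, hbridge⟩ := hreal
  have hf₀L : f₀ ∈ CuspForm.intLattice N 2 := (mem_qIntegralSet_iff f₀).1 hf₀
  have hcong := zmod_eq_of_bridge hbridge
  haveI : Module.Finite ℤ (CuspForm.heckeAlgebra N 2 ∅) := heckeAlgebra_finite h ∅
  haveI : FiniteDimensional ℂ (CuspForm (Gamma0 N) 2) := finiteDimensional_cuspForm N 2
  have hI : congrIdeal f₀ ≠ ⊤ := congrIdeal_ne_top haf hcong heig.1
  obtain ⟨𝔪, h𝔪max, hI𝔪⟩ := Ideal.exists_le_maximal _ hI
  obtain ⟨v, χ, hv0, hχ, hker⟩ :=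
    exists_eigenchar_ker_le (CuspForm.heckeAlgebra N 2 ∅).val.toRingHom
      Subtype.val_injective 𝔪
  obtain ⟨χ', 𝔪', hχ', h𝔪'max, hmem⟩ := exists_integral_lift χ 𝔪 hker
  let lam : ℕ → ℂ := fun p =>
    if hp : p.Prime then
      (if hpN : p ∣ N then χ (CuspForm.heckeAlgebra.U hp hpN (Set.notMem_empty _))
       else χ (CuspForm.heckeAlgebra.T hp hpN (Set.notMem_empty _)))
    else 0
  have hT : ∀ (p : ℕ) (hp : p.Prime) (hpN : ¬ p ∣ N),
      CuspForm.heckeTLin 2 hp hpN v = lam p • v := by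
    intro p hp hpN
    have := hχ (CuspForm.heckeAlgebra.T hp hpN (Set.notMem_empty _))
    simp only [lam, dif_pos hp, dif_neg hpN]
    exact this
  have hU : ∀ (p : ℕ) (_ : p.Prime) (hpN : p ∣ N),
      CuspForm.heckeULin 2 hpN v = lam p • v := by
    intro p hp hpN
    have := hχ (CuspForm.heckeAlgebra.U hp hpN (Set.notMem_empty _))
    simp only [lam, dif_pos hp, dif_pos hpN]
    exact this
  obtain ⟨g, hg, hgl⟩ := exists_normalized_eigenform v hv0 lam hT hU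
  refine ⟨g, hg, 𝔪', h𝔪'max, ?_, ?_⟩
  · have h3 := hmem _ (hI𝔪 (three_mem_congrIdeal hf₀L))
    have : χ' (algebraMap ℤ (CuspForm.heckeAlgebra N 2 ∅) 3) =
        ((3 : ℕ) : integralClosure ℤ ℂ) := by
      rw [eq_intCast, map_intCast]
      norm_num
    rw [this] at h3
    exact h3
  · intro ℓ hℓ hℓN
    refine ⟨χ' (CuspForm.heckeAlgebra.T hℓ hℓN (Set.notMem_empty _)), ?_, ?_⟩
    · rw [hχ', hgl ℓ hℓ]
      simp only [lam, dif_pos hℓ, dif_neg hℓN]
    · have hmemT := hmem _ (hI𝔪 (T_sub_mem_congrIdeal heig haf hcong hℓ hℓN))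
      have : χ' ((CuspForm.heckeAlgebra.T hℓ hℓN (Set.notMem_empty _) :
          CuspForm.heckeAlgebra N 2 ∅) - algebraMap ℤ (CuspForm.heckeAlgebra N 2 ∅) (a ℓ)) =
          χ' (CuspForm.heckeAlgebra.T hℓ hℓN (Set.notMem_empty _)) -
            (a ℓ : integralClosure ℤ ℂ) := by
        simp
      rw [this] at hmemT
      exact hmemT

end Fermat.Agent.S49
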