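import Fermat.Statements.S51
import Fermat.Agent.S51.Assembly
import Fermat.Agent.S51.AGalois
import Fermat.Agent.S51.BCore
import Fermat.Agent.S51.Descent

set_option autoImplicit false
open WeierstrassCurve WeierstrassCurve.Affine WeierstrassCurve.Affine.Point
open CuspForm ModularFormClass UpperHalfPlane
open WeierstrassCurve

namespace Fermat.Agent.S51

theorem result (W : WeierstrassCurve ℤ) (hΔ : W.Δ ≠ 0) (hW : W.IsSemistableModel) : W.ModRepIsIrreducible 3 ∨ W.ModRepIsIrreducible 5 := by
  refine assembly ?_ ?_ ?_ ?_ W hΔ hW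
  · intro W hΔ h
    exact A_three W hΔ h
  · intro W hΔ h
    exact A_five W hΔ h
  · intro b₂ b₄ b₆ b₈ r s t hb hΔ h3 h5a h5b hst hC
    exact B66_main b₂ b₄ b₆ b₈ r s t hb hΔ h3 h5a h5b hst hC
  · intro x y h
    exact rational_points_15a x y h

end Fermat.Agent.S51
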