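import Fermat.Statements.S52
import Fermat.Agent.S52.Skeleton3
import Fermat.Agent.S52.Congr
import Fermat.Agent.S52.IrrAux
import Fermat.Agent.S52.Model
import Fermat.Agent.S52.FamAsm
import Fermat.Agent.S52.H5RatOfZ
import Fermat.Agent.S52.H72ShortZ
import Fermat.Agent.S52.SSNZ
import Fermat.Agent.S52.Coprime
import Fermat.Agent.S52.H78Main
import Fermat.Agent.S52.Core.H42CoreAsm
import Fermat.Agent.S52.Klein.Data

/-!
# S52: the 3-5 switch

Assembly (helper86, architect) of the leaves of `S52/Skeleton3.lean`: the icosahedral family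
through `W` (Klein's covariant pencil), the universal 5-torsion datum `klData`, Galois descent
of the base point, an auxiliary prime `r ≡ 7 mod 12` dividing `c₆(W')`.
-/

set_option autoImplicit false
open WeierstrassCurve WeierstrassCurve.Affine WeierstrassCurve.Affine.Point
open CuspForm ModularFormClass UpperHalfPlane
open WeierstrassCurve

namespace Fermat.Agent.S52

theorem result (W : WeierstrassCurve ℤ) (hΔ : W.Δ ≠ 0) (hW : W.IsSemistableModel) (h5 : W.ModRepIsIrreducible 5) : ∃ W' : WeierstrassCurve ℤ, W'.Δ ≠ 0 ∧ W'.IsSemistableModel ∧ W'.ModRepIsIrreducible 3 ∧ ∀ ℓ : ℕ, ℓ.Prime → W.IsGoodPrimeFor ℓ → W'.IsGoodPrimeFor ℓ → ℓ ≠ 5 → (5 : ℤ) ∣ (W'.apOfModel ℓ - W.apOfModel ℓ) := by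
  have _h5 := h5
  exact s52_of_leaves ifaceCongr
    (fun W r hr h12 hg hc => h50s52_modRepIsIrreducible_three_of_c₆ W hr h12 hg hc)
    h49_model h72f_famAsmZ h5ro_ratOfZ h72z_shortZ ifaceSSNZ
    (h42c_coreDescZ ifaceKlData) (h42c_coreSepZ ifaceKlData) (h42c_coreIsoZ ifaceKlData)
    h78_ifaceInertia3w ifaceCoprime W hΔ hW

end Fermat.Agent.S52
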