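import Fermat.Statements.S54
import Fermat.Agent.S54.Frobenius

set_option autoImplicit false
set_option linter.style.haveILetI false
open GaloisRep GaloisRep.DeformationRingData

namespace Fermat.Agent.S54

open Polynomial

/-- Characteristic polynomials of equivalent representations agree. -/
theorem charpoly_eq_of_equiv {A : Type} [CommRing A] [IsLocalRing A] {ρ₁ ρ₂ : GaloisRepAdic A}
    (e : GaloisRepAdic.Equiv ρ₁ ρ₂) (σ : AlgebraicClosure ℚ ≃ₐ[ℚ] AlgebraicClosure ℚ) :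
    LinearMap.charpoly (ρ₁.ρ σ) = LinearMap.charpoly (ρ₂.ρ σ) := by
  have h : ρ₂.ρ σ = e.toLinearEquiv.conj (ρ₁.ρ σ) := by
    apply LinearMap.ext
    intro x
    rw [LinearEquiv.conj_apply_apply, e.map_apply, LinearEquiv.apply_symm_apply]
  rw [h, LinearEquiv.charpoly_conj]

/-- Characteristic polynomial of a base change. -/
theorem charpoly_baseChangeAlong {A B : Type} [CommRing A] [IsLocalRing A] [CommRing B]
    [IsLocalRing B] (φ : A →+* B) (hφ : IsLocalHom φ) (ρ : GaloisRepAdic A)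
    (σ : AlgebraicClosure ℚ ≃ₐ[ℚ] AlgebraicClosure ℚ) :
    LinearMap.charpoly ((ρ.baseChangeAlong φ hφ).ρ σ) = (LinearMap.charpoly (ρ.ρ σ)).map φ := by
  letI : Algebra A B := φ.toAlgebra
  exact LinearMap.charpoly_baseChange (A := B) (ρ.ρ σ)

theorem result {𝒪 : Type} [CommRing 𝒪] [IsDomain 𝒪] [IsDiscreteValuationRing 𝒪] [IsAdicComplete (IsLocalRing.maximalIdeal 𝒪) 𝒪] {ρbar : ResidualGaloisRep (IsLocalRing.ResidueField 𝒪)} {𝒟 : ∀ ⦃A : Type⦄ [CommRing A] [IsLocalRing A] [Algebra 𝒪 A], GaloisRepAdic A → Prop} (D : GaloisRep.DeformationRingData 𝒪 ρbar 𝒟) {N : ℕ} [NeZero N] {S : Set ℕ} {θ : CuspForm.heckeAlgebra N 2 S →+* IsLocalRing.ResidueField 𝒪} {T : Type} [CommRing T] [IsLocalRing T] [IsNoetherianRing T] [IsAdicComplete (IsLocalRing.maximalIdeal T) T] [Algebra 𝒪 T] [IsLocalHom (algebraMap 𝒪 T)] [Module.Finite 𝒪 T] [Module.Free 𝒪 T] (H : CuspForm.HeckeGaloisRepDatum N S 𝒪 θ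 T) (hS : ∀ q : ℕ, q.Prime → q ∣ N → q ∈ S) (h𝒟 : 𝒟 H.ρ) (hres : H.ρ.residual.IsEquiv (ρbar.baseChangeAlong (IsLocalRing.ResidueField.map (algebraMap 𝒪 T)))) : ∃ φ : D.R →ₐ[𝒪] T, Function.Surjective φ ∧ ∃ hφ : IsLocalHom (φ : D.R →+* T), (D.ρ.baseChangeAlong (φ : D.R →+* T) hφ).IsEquiv H.ρ := by
  obtain ⟨φ, ⟨hφ, ⟨e⟩⟩, -⟩ := D.universal T H.residue_surjective H.ρ h𝒟 hres
  refine ⟨φ, ?_, hφ, ⟨e⟩⟩
  rw [← AlgHom.range_eq_top, eq_top_iff, ← H.adjoin_range_π]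
  refine Algebra.adjoin_le ?_
  rintro _ ⟨⟨t, ht⟩, rfl⟩
  show H.π ⟨t, ht⟩ ∈ φ.range
  refine Algebra.adjoin_induction
    (p := fun x hx => H.π (⟨x, hx⟩ : CuspForm.heckeAlgebra N 2 S) ∈ φ.range) ?_ ?_ ?_ ?_ ht
  · rintro x (⟨ℓ, hℓ, hℓN, hℓS, rfl⟩ | ⟨q, hqN, hq, hqS, rfl⟩)
    · obtain ⟨A, σ, hA, hσ⟩ := exists_isFrobeniusAt ℓ hℓ
      have h1 := H.charpoly_frob ℓ hℓ hℓN hℓS A hA σ hσ
      have h2 : LinearMap.charpoly (H.ρ.ρ σ) =
          (LinearMap.charpoly (D.ρ.ρ σ)).map (φ : D.R →+* T) := by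
        rw [← charpoly_eq_of_equiv e σ, charpoly_baseChangeAlong]
      have h3 := congrArg (fun p => Polynomial.coeff p 1) (h1.symm.trans h2)
      simp only [Polynomial.coeff_map, Polynomial.coeff_add, Polynomial.coeff_sub,
        Polynomial.coeff_X_pow, Polynomial.coeff_C_mul, Polynomial.coeff_X_one,
        Polynomial.coeff_C] at h3
      norm_num at h3
      refine ⟨-(LinearMap.charpoly (D.ρ.ρ σ)).coeff 1, ?_⟩
      show φ (-(LinearMap.charpoly (D.ρ.ρ σ)).coeff 1) =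
        H.π (CuspForm.heckeAlgebra.T hℓ hℓN hℓS)
      rw [map_neg, ← h3, neg_neg]
    · exact absurd (hS q hq hqN) hqS
  · intro r
    refine ⟨algebraMap ℤ D.R r, ?_⟩
    have e1 : (⟨algebraMap ℤ _ r, Subalgebra.algebraMap_mem _ r⟩ : CuspForm.heckeAlgebra N 2 S) =
        ((r : ℤ) : CuspForm.heckeAlgebra N 2 S) := by
      apply Subtype.ext
      simp
    show φ (algebraMap ℤ D.R r) = H.π ⟨algebraMap ℤ _ r, _⟩
    rw [e1, map_intCast]
    simp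
  · intro x y hx hy hpx hpy
    have e1 : (⟨x + y, Subalgebra.add_mem _ hx hy⟩ : CuspForm.heckeAlgebra N 2 S) =
        ⟨x, hx⟩ + ⟨y, hy⟩ := rfl
    show H.π ⟨x + y, _⟩ ∈ φ.range
    rw [e1, map_add]
    exact Subalgebra.add_mem _ hpx hpy
  · intro x y hx hy hpx hpy
    have e1 : (⟨x * y, Subalgebra.mul_mem _ hx hy⟩ : CuspForm.heckeAlgebra N 2 S) =
        ⟨x, hx⟩ * ⟨y, hy⟩ := rfl
    show H.π ⟨x * y, _⟩ ∈ φ.range
    rw [e1, map_mul]
    exact Subalgebra.mul_mem _ hpx hpy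

end Fermat.Agent.S54
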