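import Fermat.Statements.S55
import Fermat.Agent.PT.Arith.Wire2
import Fermat.Agent.PT.Glob.H47Top
import Fermat.Agent.PT.Loc.H84VanCyc
import Fermat.Agent.PT.Glob.Rec.H79RecQForFinal
import Fermat.Agent.PT.Glob.H24InvW
import Fermat.Agent.PT.Glob.H24InvWLoc
import Fermat.Agent.PT.Glob.H2KNondegFinal
import Fermat.Agent.PT.Glob.H98BrAlg
import Fermat.Agent.PT.Glob.H12ShaDict
import Fermat.Agent.PT.Glob.Sha.H11ShaWire
import Fermat.Agent.PT.Glob.H82HasseMain
import Fermat.Agent.PT.Glob.H93KDAsm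
import Fermat.Agent.PT.Glob.H64KLeftAsm
import Fermat.Agent.PT.Glob.K.H69Pair
import Fermat.Agent.PT.Glob.K.H72LocEval
import Fermat.Agent.PT.Glob.K.H65TameW
import Fermat.Agent.PT.Glob.K.H29DPInertGamU

/-!
# S55: Poitou–Tate duality `Ш¹(M^D) × Ш²(M) → 𝔽_p` (pillar W3-PT)

The arithmetic inputs (`ArithInputs`, `PT/Arith/Iface.lean`) are assembled by
`h47_arithInputs_of` (`PT/Glob/H47Top.lean`) from the landed leaves of PT-LOC, PT-SHAP,
PT-GLOB-BR and PT-GLOB-K; the abstract duality frame (`PT/Assembly2.lean`, `PT/Arith/Wire2.lean`)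
turns them into the frozen statement.
-/

set_option autoImplicit false
open CategoryTheory Module groupCohomology ExtCitation
open groupCohomology

namespace Fermat.Agent.S55

open Fermat.Agent.PT Fermat.Agent.PT.Glob in
/-- The arithmetic inputs of S55, unconditional. -/
theorem arithInputs_holds : ArithInputs :=
  h47_arithInputs_of Loc.h84_vanCycAbs (fun p _ hp2 => h79r_recQFor p hp2) h24w_kInvW
    (fun p _ => h24w_invWOK (p := p)) (fun p _ => h24w_locInjW (p := p))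
    (fun p _ => h2k_locNondegW p) h98b_brAlgA h98b_brAlgC
    (h12s_brCountH_of (h11s_gShaBound_of_hasse h82m_gHasse)) h93d_kCountDAsm h64l_kLeftAsm
    h69p_kPairFormula h72e_kLocEval h65t_kTameW h29d_kInertGam_holds

theorem result
    {p : ℕ} [Fact p.Prime] (hp2 : p ≠ 2) (S : Finset Nat.Primes) (hpS : pPrime p ∈ S)
    (M : Rep (ZMod p) (AlgebraicClosure ℚ ≃ₐ[ℚ] AlgebraicClosure ℚ))
    [FiniteDimensional (ZMod p) M]
    (hsm : ∀ m : M, ∃ F : IntermediateField ℚ (AlgebraicClosure ℚ), FiniteDimensional ℚ F ∧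
      ∀ s ∈ F.fixingSubgroup, M.ρ s m = m)
    (hMur : ∀ q : Nat.Primes, q ∉ S → ∀ A : ValuationSubring (AlgebraicClosure ℚ),
      A.LiesOverPrime (q : ℕ) → ∀ g ∈ A.inertiaSubgroupIn ℚ, M.ρ g = 1) :
    ∃ B : sha₁ S (M.dualTwist (cycloChar p)) →ₗ[ZMod p] sha₂ S M →ₗ[ZMod p] ZMod p,
      (∀ y, (∀ x, B y x = 0) → y = 0) ∧ (∀ x, (∀ y, B y x = 0) → x = 0) := by
  exact Fermat.Agent.PT.s55_of_arithInputs arithInputs_holds hp2 S hpS M hsm hMur

end Fermat.Agent.S55
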