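import Fermat.Statements.S57
import Fermat.Agent.S57.RegSeq
import Fermat.Agent.S57.FiniteLengthProjDim
import Fermat.Agent.S57.Transport
import Fermat.Agent.S57.Endgame

set_option autoImplicit false
open Algebra Algebra.PatchingLevel

namespace Fermat.Agent.S57

/-- The patched module `N` is free over the power series ring. -/
theorem free_N
    {𝒪 : Type} [CommRing 𝒪] [IsDomain 𝒪] [IsDiscreteValuationRing 𝒪]
    {r : ℕ} {R : Type} [CommRing R] [Algebra 𝒪 R]
    {M : Type} [AddCommGroup M] [Module R M] [Nontrivial M]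
    (L : Algebra.PatchingLevel 𝒪 r R M ⊥) :
    Module.Free (MvPowerSeries (Fin r) 𝒪) L.N := by
  obtain ⟨ϖ, hϖ⟩ := IsDiscreteValuationRing.exists_irreducible 𝒪
  have hreg := isRegular_vars_uniformizer r hϖ
  have hmax := ofList_vars_uniformizer r hϖ
  generalize (List.ofFn (fun i : Fin r => (MvPowerSeries.X i : MvPowerSeries (Fin r) 𝒪)) ++
        [(MvPowerSeries.C : 𝒪 →+* MvPowerSeries (Fin r) 𝒪) ϖ]) = xs at hreg hmax
  have := finite_N L
  refine free_of_isWeaklyRegular_of_isFiniteLength xs hreg hmax (xs.map L.φ)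
    (isWeaklyRegular_map_phi L xs hreg.toIsWeaklyRegular) ?_ (by simp) ?_
  · intro y hy
    obtain ⟨x, hx, rfl⟩ := List.mem_map.mp hy
    apply phi_mem_maximalIdeal L
    rw [← hmax]
    exact Ideal.subset_span hx
  · have hmap : Ideal.ofList (xs.map L.φ) =
        (IsLocalRing.maximalIdeal (MvPowerSeries (Fin r) 𝒪)).map L.φ := by
      rw [← hmax, Ideal.ofList, Ideal.ofList, Ideal.map_span]
      congr 1
      ext y
      simp
    rw [hmap]
    exact isFiniteLength_quot_map_maximalIdeal L

theorem result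
    {𝒪 : Type} [CommRing 𝒪] [IsDomain 𝒪] [IsDiscreteValuationRing 𝒪]
    {r : ℕ} {R : Type} [CommRing R] [Algebra 𝒪 R]
    {M : Type} [AddCommGroup M] [Module R M] [Nontrivial M]
    (L : Algebra.PatchingLevel 𝒪 r R M ⊥) :
    Module.Free R M ∧ Module.annihilator R M = ⊥ ∧
      RingHom.ker L.ψ = Ideal.span (Set.range fun i : Fin r => L.φ (MvPowerSeries.X i)) := by
  exact endgame_of_free L (free_N L)

end Fermat.Agent.S57
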